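/-
helper73 — S59, cell TW, Layer 2, leaf CMPL: the abstract (Mathlib + `H525`) core.

`range_eq_of_lgc` : `V` a `T`-module with an `𝒪`-basis `dia (g^e) b_i` (`e_j < p^(m_j)`),
`X = dia (mulSingle j (g j))`, `w w' = 1`, `w^(p^k) = 1` and `(w + w') y = X y + X⁻¹ y` on `V`
⟹ `(w - 1) V = (X - 1) V`.
-/
import Fermat.Agent.S59.H525.BasisTransfer

set_option autoImplicit false

namespace Fermat.Agent.S59.TW.H73

open Fermat.Agent.S59.H525

/-- A basis from the unique representation property. -/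
theorem exists_basis_of_existsUnique_h73 {R M ι : Type} [CommRing R] [AddCommGroup M]
    [Module R M] [Fintype ι] (v : ι → M)
    (h : ∀ y : M, ∃! c : ι → R, y = ∑ i, c i • v i) :
    ∃ B : Module.Basis ι R M, ∀ i, B i = v i := by
  classical
  have hbij : Function.Bijective (Fintype.linearCombination R v) := by
    constructor
    · intro c c' hcc
      obtain ⟨c₀, -, huniq⟩ := h (Fintype.linearCombination R v c)
      rw [huniq c rfl, huniq c' hcc]
    · intro y
      obtain ⟨c, hc, -⟩ := h y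
      exact ⟨c, hc.symm⟩
  let e : (ι → R) ≃ₗ[R] M := LinearEquiv.ofBijective _ hbij
  refine ⟨Module.Basis.ofEquivFun e.symm, fun i => ?_⟩
  rw [Module.Basis.coe_ofEquivFun]
  simp [e, Fintype.linearCombination_apply_single]

/-- `ZMod n ≃ Fin n` through `val`. -/
noncomputable def zmodFin_h73 (n : ℕ) [NeZero n] : ZMod n ≃ Fin n where
  toFun z := ⟨z.val, ZMod.val_lt z⟩
  invFun e := ((e : ℕ) : ZMod n)
  left_inv z := ZMod.natCast_zmod_val z
  right_inv e := Fin.ext (ZMod.val_natCast_of_lt e.is_lt)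

theorem zmodFin_h73_val (n : ℕ) [NeZero n] (z : ZMod n) : ((zmodFin_h73 n z : Fin n) : ℕ) = z.val :=
  rfl

section Core

variable {𝒪 T V : Type} [CommRing 𝒪] [CommRing T] [Algebra 𝒪 T] [AddCommGroup V] [Module T V]
  {r : ℕ} {G : Fin r → Type} [∀ j, CommGroup (G j)]

/-- splitting off the `j`-th exponent. -/
theorem dia_pow_split_h73 (dia : (∀ j : Fin r, G j) →* Module.End T V) (g : ∀ j : Fin r, G j)
    (j : Fin r) (f : Fin r → ℕ) :
    dia (fun j' => g j' ^ f j') =
      dia (Pi.mulSingle j (g j)) ^ f j * dia (fun j' => g j' ^ Function.update f j 0 j') := by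
  rw [← map_pow, ← map_mul]
  congr 1
  funext j'
  by_cases h : j' = j
  · subst h
    simp
  · simp [Pi.mulSingle_eq_of_ne h, Function.update_of_ne h]

/-- **CMPL, abstract core.** -/
theorem range_eq_of_lgc_h73 [IsDomain 𝒪] [CharZero 𝒪] [Module 𝒪 V] [IsScalarTower 𝒪 T V]
    {p : ℕ} (hp : p.Prime) (hodd : Odd p) (h2 : IsUnit (2 : 𝒪))
    (m : Fin r → ℕ) (dia : (∀ j : Fin r, G j) →* Module.End T V) (g : ∀ j : Fin r, G j)
    (hX : ∀ j, dia (Pi.mulSingle j (g j)) ^ (p ^ m j) = 1)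
    (d : ℕ) (b : Fin d → V)
    (hb : ∀ y : V, ∃! c : Fin d → (∀ j : Fin r, Fin (p ^ m j)) → 𝒪,
      y = ∑ i, ∑ e, algebraMap 𝒪 T (c i e) • dia (fun j => g j ^ (e j : ℕ)) (b i))
    (j : Fin r) (w w' : T) (k : ℕ) (hww' : w * w' = 1) (hw : w ^ (p ^ k) = 1)
    (hlgc : ∀ y : V, (w + w') • y =
      dia (Pi.mulSingle j (g j)) y + dia (Pi.mulSingle j (g j)⁻¹) y) (y : V) :
    (∃ y' : V, y = w • y' - y') ↔ ∃ y' : V, y = dia (Pi.mulSingle j (g j)) y' - y' := by
  classical
  have : NeZero (p ^ m j) := ⟨pow_ne_zero _ hp.ne_zero⟩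
  -- the basis
  let v : Fin d × (∀ j' : Fin r, Fin (p ^ m j')) → V :=
    fun z => dia (fun j' => g j' ^ (z.2 j' : ℕ)) (b z.1)
  have hv : ∀ y : V, ∃! c : Fin d × (∀ j' : Fin r, Fin (p ^ m j')) → 𝒪, y = ∑ z, c z • v z := by
    intro y
    obtain ⟨c, hc, huniq⟩ := hb y
    refine ⟨fun z => c z.1 z.2, ?_, ?_⟩
    · show y = ∑ z : Fin d × (∀ j' : Fin r, Fin (p ^ m j')), c z.1 z.2 • v z
      rw [Fintype.sum_prod_type, hc]
      refine Finset.sum_congr rfl fun i _ => Finset.sum_congr rfl fun e _ => ?_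
      rw [algebraMap_smul]
    · intro c' hc'
      have := huniq (fun i e => c' (i, e)) (by
        rw [hc', Fintype.sum_prod_type]
        refine Finset.sum_congr rfl fun i _ => Finset.sum_congr rfl fun e _ => ?_
        rw [algebraMap_smul])
      funext z
      rw [← this]
  obtain ⟨B, hB⟩ := exists_basis_of_existsUnique_h73 v hv
  -- the shift basis
  let E : ZMod (p ^ m j) × (Fin d × (∀ j' : {j' : Fin r // j' ≠ j}, Fin (p ^ m j'))) ≃
      Fin d × (∀ j' : Fin r, Fin (p ^ m j')) :=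
    ((Equiv.prodAssoc _ _ _).symm.trans
      (((Equiv.prodComm _ _).prodCongr (Equiv.refl _)).trans (Equiv.prodAssoc _ _ _))).trans
      ((Equiv.refl (Fin d)).prodCongr
        (((zmodFin_h73 (p ^ m j)).prodCongr (Equiv.refl _)).trans
          (Equiv.piSplitAt j (fun j' : Fin r => Fin (p ^ m j'))).symm))
  have hE1 : ∀ z k, (E (z, k)).1 = k.1 := fun _ _ => rfl
  have hEj : ∀ z k, ((E (z, k)).2 j : ℕ) = z.val := by
    intro z k
    simp [E, Equiv.piSplitAt_symm_apply, zmodFin_h73]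
  have hEne : ∀ z k (j' : Fin r) (h : j' ≠ j), ((E (z, k)).2 j' : ℕ) = (k.2 ⟨j', h⟩ : ℕ) := by
    intro z k j' h
    simp [E, Equiv.piSplitAt_symm_apply, h]
  let B' := B.reindex E.symm
  have hB' : ∀ z, B' z = v (E z) := by
    intro z
    rw [Module.Basis.reindex_apply, Equiv.symm_symm, hB]
  set XT : Module.End T V := dia (Pi.mulSingle j (g j)) with hXT
  let X : Module.End 𝒪 V := XT.restrictScalars 𝒪
  have hXapp : ∀ u : V, X u = XT u := fun _ => rfl
  have hshift : ∀ z k, X (B' (z, k)) = B' (z + 1, k) := by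
    intro z k
    rw [hB', hB', hXapp]
    show XT (dia (fun j' => g j' ^ ((E (z, k)).2 j' : ℕ)) (b (E (z, k)).1)) =
      dia (fun j' => g j' ^ ((E (z + 1, k)).2 j' : ℕ)) (b (E (z + 1, k)).1)
    rw [hE1, hE1, dia_pow_split_h73 dia g j (fun j' => ((E (z, k)).2 j' : ℕ)),
      dia_pow_split_h73 dia g j (fun j' => ((E (z + 1, k)).2 j' : ℕ)), ← hXT,
      ← Module.End.mul_apply, ← mul_assoc, ← pow_succ']
    have e1 : Function.update (fun j' => ((E (z, k)).2 j' : ℕ)) j 0 =
        Function.update (fun j' => ((E (z + 1, k)).2 j' : ℕ)) j 0 := by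
      funext j'
      by_cases h : j' = j
      · subst h; simp
      · rw [Function.update_of_ne h, Function.update_of_ne h, hEne z k j' h, hEne (z + 1) k j' h]
    have e2 : XT ^ (((E (z, k)).2 j : ℕ) + 1) = XT ^ ((E (z + 1, k)).2 j : ℕ) := by
      rw [hEj, hEj, pow_eq_pow_mod (z.val + 1) (hX j), ZMod.val_add, ZMod.val_one_eq_one_mod,
        Nat.add_mod_mod]
    rw [e1, e2]
  -- `F0`, `F2`, `F3`
  have F0 : ∀ u : V, p • u = 0 → u = 0 := by
    intro u hu
    apply B.repr.injective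
    rw [map_zero]
    ext z
    have h1 : p • (B.repr u z) = 0 := by
      rw [← Finsupp.smul_apply, ← map_nsmul, hu, map_zero, Finsupp.coe_zero, Pi.zero_apply]
    rw [nsmul_eq_mul] at h1
    rcases mul_eq_zero.mp h1 with h | h
    · exact absurd (Nat.cast_eq_zero.mp h) hp.ne_zero
    · simpa using h
  have F2 := shift_fixed_eq_norm B' X hshift
  have F3 := shift_norm_eq_zero B' X hshift
  have hXpow : X ^ (p ^ m j) = 1 := shift_pow_eq_one B' X hshift
  -- the operator `Y`
  let Y : Module.End 𝒪 V := Module.toModuleEnd 𝒪 (S := T) V w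
  have hYapp : ∀ u : V, Y u = w • u := fun _ => rfl
  have hYpow : Y ^ (p ^ k) = 1 := by
    show (Module.toModuleEnd 𝒪 (S := T) V w) ^ (p ^ k) = 1
    rw [← map_pow, hw, map_one]
  have hcomm : Commute X Y := by
    refine LinearMap.ext fun u => ?_
    rw [Module.End.mul_apply, Module.End.mul_apply, hYapp, hYapp, hXapp, hXapp, map_smul]
  have hinv : ∀ u : V, dia (Pi.mulSingle j (g j)⁻¹) (XT u) = u := by
    intro u
    rw [hXT, ← Module.End.mul_apply, ← map_mul, ← Pi.mulSingle_mul, inv_mul_cancel,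
      Pi.mulSingle_one, map_one, Module.End.one_apply]
  have hbb : (Y - X) * (Y * X - 1) = 0 := by
    refine LinearMap.ext fun u => ?_
    have h1 : XT (XT u) = (w + w') • XT u - u := by
      rw [hlgc (XT u), hinv, add_sub_cancel_right]
    have h3 : (w * w') • XT u = XT u := by rw [hww', one_smul]
    have h4 : w • (w + w') • XT u = w • w • XT u + XT u := by
      rw [add_smul, smul_add, ← mul_smul w w', h3]
    have key : ((Y - X) * (Y * X - 1)) u = w • (w • XT u - u) - XT (w • XT u - u) := rfl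
    rw [key, LinearMap.zero_apply, map_sub, map_smul, h1]
    simp only [smul_sub, h4]
    abel
  have hrange := range_sub_one_eq_of_commute hp.pos hodd X Y hcomm hXpow hYpow hbb h2 F0 F2 F3
  have hL : (∃ y' : V, y = w • y' - y') ↔ y ∈ LinearMap.range (Y - 1) := by
    rw [LinearMap.mem_range]
    constructor
    · rintro ⟨y', rfl⟩
      exact ⟨y', rfl⟩
    · rintro ⟨y', hy'⟩
      exact ⟨y', hy'.symm⟩
  have hR : (∃ y' : V, y = XT y' - y') ↔ y ∈ LinearMap.range (X - 1) := by
    rw [LinearMap.mem_range]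
    constructor
    · rintro ⟨y', rfl⟩
      exact ⟨y', rfl⟩
    · rintro ⟨y', hy'⟩
      exact ⟨y', hy'.symm⟩
  rw [hL, hR, hrange]

end Core

end Fermat.Agent.S59.TW.H73
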