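/-
helper73 — S59, cell TW, Layer 2, leaf CMPL (`TW.CmpOfLgcStatement`, frozen in `TW/Spec.lean`):
the local–global compatibility `AutLevel.Lgc` implies the comparison `AutLevel.Cmp`, given INO.

INO gives `charpoly ρ(σ) = (X - w)(X - w')`, `w w' = 1`, `w^(p^m) = 1`, so `tr ρ(σ) = w + w'`;
`Lgc` gives `(w + w') y = X y + X⁻¹ y` on `M_Q` (`X = dia_j a`); `A.free` at primitive roots `g`
with `g j = a` gives the `𝒪`-basis; the abstract core (`CmplCore.lean`, two-structure lemma of
helper525) gives `(w - 1) M_Q = (X - 1) M_Q`.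
-/
import Fermat.Agent.S59.TW.Spec
import Fermat.Agent.S59.TW.H73.CmplCore

set_option autoImplicit false

open Polynomial IsLocalRing

namespace Fermat.Agent.S59.TW.H73

open Fermat.Agent.S59.Arch Fermat.Agent.S59.TW.H959 Fermat.Agent.S59.TW

/-- The trace from a split characteristic polynomial in rank `2`. -/
theorem trace_eq_add_of_charpoly_h73 {A : Type} [CommRing A] [Nontrivial A] {V : Type}
    [AddCommGroup V] [Module A V] [Module.Free A V] [Module.Finite A V]
    (hV : Module.finrank A V = 2) (f : Module.End A V) (w w' : A)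
    (hf : LinearMap.charpoly f = (X - C w) * (X - C w')) :
    LinearMap.trace A V f = w + w' := by
  classical
  have hcard : Fintype.card (Module.Free.ChooseBasisIndex A V) = 2 := by
    rw [← Module.finrank_eq_card_chooseBasisIndex, hV]
  haveI : Nonempty (Module.Free.ChooseBasisIndex A V) := by
    rw [← Fintype.card_pos_iff, hcard]; norm_num
  have hf' : LinearMap.charpoly f = X ^ 2 - C (w + w') * X + C (w * w') := by
    rw [hf, map_add, map_mul]
    ring
  rw [LinearMap.trace_eq_matrix_trace A (Module.Free.chooseBasis A V) f,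
    Matrix.trace_eq_neg_charpoly_coeff, hcard,
    LinearMap.charpoly_toMatrix f (Module.Free.chooseBasis A V), hf']
  simp [Polynomial.coeff_X, Polynomial.coeff_C]

/-- primitive roots modulo a prime. -/
theorem exists_primitive_root_h73 (q : ℕ) (hq : q.Prime) :
    ∃ g : (ZMod q)ˣ, orderOf g = q - 1 := by
  haveI : Fact q.Prime := ⟨hq⟩
  obtain ⟨g, hg⟩ := IsCyclic.exists_generator (α := (ZMod q)ˣ)
  refine ⟨g, ?_⟩
  rw [orderOf_eq_card_of_forall_mem_zpowers hg, Nat.card_eq_fintype_card, ZMod.card_units]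

/-- **CMPL.** -/
theorem cmpOfLgc : CmpOfLgcStatement := by
  intro hINO p _ hp2 𝒪 _ _ _ _ _ _ ρbar Smin h t _ P₀ M₀ _ _ n r qv hq _ PQ res A hLgc
  intro j P hP φ hφ σ hσ a ha hcyc a₀ w hw y
  have hpprime : p.Prime := Fact.out
  have hodd : Odd p := hpprime.odd_of_ne_two hp2
  obtain ⟨-, hqv, -⟩ := hq
  obtain ⟨hqprime, hqS, hqdvd⟩ := hqv j
  -- inputs of INO
  have hdet : PQ.H.ρ.DetIsCyclotomic p := by
    have h1 := PQ.hcond.1
    cases t <;> exact h1.1
  have hqp : qv j ≠ p := fun e => hqS (e ▸ h.hpSmin)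
  have hpq : p ∣ qv j - 1 := dvd_trans (dvd_pow_self p (Nat.succ_ne_zero n)) hqdvd
  have hunr : PQ.H.ρ.residual.IsUnramifiedAt (qv j) := by
    have h1 : ρbar.IsUnramifiedAt (qv j) := by
      by_contra hcon
      exact hqS ((h.hmin (qv j) hqprime hqp).mpr hcon)
    obtain ⟨e⟩ := PQ.hres
    intro B hB τ hτ
    have h2 : (ρbar.baseChangeAlong (ResidueField.map (algebraMap 𝒪 PQ.T))).ρ τ = 1 := by
      letI : Algebra (ResidueField 𝒪) (ResidueField PQ.T) :=
        (ResidueField.map (algebraMap 𝒪 PQ.T)).toAlgebra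
      show (ρbar.ρ τ).baseChange (ResidueField PQ.T) = 1
      rw [h1 B hB τ hτ]
      exact LinearMap.baseChange_one _ _
    refine LinearMap.ext fun x => ?_
    apply e.toLinearEquiv.injective
    rw [e.map_apply, h2]
    rfl
  haveI : Finite (ResidueField PQ.T) := IsLocalRing.ResidueField.finite_of_finite (R := 𝒪) ‹_›
  obtain ⟨w', hww', hwp, hchar⟩ :=
    hINO p PQ.T hdet.1 PQ.H.ρ hdet (qv j) hqprime hqp hpq hunr P hP φ hφ σ hσ a₀ w hw
  have htr : PQ.H.ρ.trace σ = w + w' :=
    trace_eq_add_of_charpoly_h73 PQ.H.ρ.finrank_eq _ w w' hchar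
  -- primitive roots
  have hex : ∀ j', ∃ g : (ZMod (qv j'))ˣ, orderOf g = qv j' - 1 :=
    fun j' => exists_primitive_root_h73 _ (hqv j').1
  choose g0 hg0 using hex
  let g : ∀ j', (ZMod (qv j'))ˣ := Function.update g0 j a
  have hgj : g j = a := Function.update_self _ _ _
  have hg : ∀ j', orderOf (g j') = qv j' - 1 := by
    intro j'
    by_cases hj : j' = j
    · subst hj
      rw [hgj]
      exact ha
    · show orderOf (Function.update g0 j a j') = _
      rw [Function.update_of_ne hj]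
      exact hg0 j'
  obtain ⟨d, b, hb⟩ := A.free g hg
  letI : Module 𝒪 A.MQ := Module.compHom A.MQ (algebraMap 𝒪 PQ.T)
  haveI : IsScalarTower 𝒪 PQ.T A.MQ :=
    ⟨fun c s x => by
      show (c • s) • x = algebraMap 𝒪 PQ.T c • (s • x)
      rw [Algebra.smul_def, mul_smul]⟩
  have h2 : IsUnit (2 : 𝒪) := by
    apply Fermat.Agent.S59.H525.isUnit_two_of_mem_jacobson hodd
    rw [IsLocalRing.jacobson_eq_maximalIdeal _ bot_ne_top]
    exact h.hp𝒪
  have hX : ∀ j', A.dia (Pi.mulSingle j' (g j')) ^ (p ^ padicValNat p (qv j' - 1)) = 1 := by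
    intro j'
    rw [← map_pow, ← A.dia_pow (Pi.mulSingle j' (g j'))]
    congr 1
    funext j''
    by_cases hj : j'' = j'
    · subst hj
      simp
    · simp [Pi.mulSingle_eq_of_ne hj]
  have hlgc : ∀ y : A.MQ, (w + w') • y =
      A.dia (Pi.mulSingle j (g j)) y + A.dia (Pi.mulSingle j (g j)⁻¹) y := by
    intro y
    rw [hgj, ← htr]
    exact hLgc j P hP σ hσ a hcyc y
  have key := range_eq_of_lgc_h73 hpprime hodd h2 (fun j' => padicValNat p (qv j' - 1)) A.dia g hX
    d b hb j w w' _ hww' hwp hlgc y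
  rw [hgj] at key
  exact key

end Fermat.Agent.S59.TW.H73
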